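import Fermat.Agent.Row24.Represent

/-!
# An atlas from affine charts

Charts are given on affine test objects, and cover the points over fields; gluing extends them to
all test objects.  The representing object is locally of finite presentation when the charts are.
-/

set_option autoImplicit false

universe w u

open CategoryTheory CategoryTheory.Limits AlgebraicGeometry Opposite NeronModelInfra
  GoodReductionJacobian
open AlgebraicGeometry.RelPicard

noncomputable section

namespace Fermat.Agent.Row24

section Abstract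

variable {S : Scheme.{u}} (G : (Over S)ᵒᵖ ⥤ Type w)

/-- Charts known on affine test objects. -/
structure AffineAtlas where
  /-- the index type -/
  I : Type u
  /-- the charts -/
  X : I → Over S
  /-- the sections on the charts -/
  sec : ∀ i, G.obj (op (X i))
  /-- uniqueness on affine test objects -/
  inj : ∀ (i : I) {A : CommRingCat.{u}} {a : Spec A ⟶ S} (g g' : Over.mk a ⟶ X i),
    res G g (sec i) = res G g' (sec i) → g = g'
  /-- open loci on affine test objects, universal among affine ones -/
  locus : ∀ (i : I) {A : CommRingCat.{u}} (a : Spec A ⟶ S) (x : G.obj (op (Over.mk a))),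
    ∃ U : (Spec A).Opens, ∀ {A' : CommRingCat.{u}} {a' : Spec A' ⟶ S}
      (g : Over.mk a' ⟶ Over.mk a),
      (∃ h : Over.mk a' ⟶ X i, res G h (sec i) = res G g x) ↔
        Set.range g.left ⊆ (U : Set (Spec A))
  /-- every point over a field is in some chart -/
  cover : ∀ (K : Type u) [Field K] (s : Spec (CommRingCat.of K) ⟶ S)
    (x : G.obj (op (Over.mk s))), ∃ (i : I) (h : Over.mk s ⟶ X i), res G h (sec i) = x

namespace AffineAtlas

variable {G} (A : AffineAtlas G)

/-- A test point as an object over the base. -/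
abbrev ptObj (T : Over S) (p : T.left) : Over S := Over.mk (T.left.fromSpecResidueField p ≫ T.hom)

/-- A test point as a morphism. -/
abbrev ptHom (T : Over S) (p : T.left) : ptObj T p ⟶ T :=
  Over.homMk (T.left.fromSpecResidueField p) rfl

/-- The point lifts to the chart. -/
def Lifts (i : A.I) {T : Over S} (x : G.obj (op T)) (p : T.left) : Prop :=
  ∃ h : ptObj T p ⟶ A.X i, res G h (A.sec i) = res G (ptHom T p) x

/-- The affine open pieces of a test object. -/
abbrev piece (T : Over S) (j : T.left.affineCover.I₀) : Over S :=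
  Over.mk (T.left.affineCover.f j ≫ T.hom)

/-- Their inclusions. -/
abbrev pieceHom (T : Over S) (j : T.left.affineCover.I₀) : piece T j ⟶ T :=
  Over.homMk (T.left.affineCover.f j) rfl

/-- A point over a field lifts iff its image does. -/
lemma lifts_iff (i : A.I) {T : Over S} (x : G.obj (op T)) {K : Type u} [Field K]
    (b : Spec (CommRingCat.of K) ⟶ S) (g : Over.mk b ⟶ T) (q : Spec (CommRingCat.of K)) :
    A.Lifts i x (g.left q) ↔ ∃ h : Over.mk b ⟶ A.X i, res G h (A.sec i) = res G g x := by
  obtain rfl : q = IsLocalRing.closedPoint K := Subsingleton.elim _ _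
  set p := g.left (IsLocalRing.closedPoint K)
  obtain ⟨w, hw⟩ : ∃ w : Spec (CommRingCat.of K) ⟶ Spec (T.left.residueField p),
      w ≫ T.left.fromSpecResidueField p = g.left :=
    ⟨_, Scheme.descResidueField_stalkClosedPointTo_fromSpecResidueField K T.left g.left⟩
  let w' : Over.mk b ⟶ ptObj T p := Over.homMk w (by
    show w ≫ T.left.fromSpecResidueField p ≫ T.hom = b
    rw [← Category.assoc, hw]; exact Over.w g)
  have hg : w' ≫ ptHom T p = g := Over.OverMorphism.ext hw
  refine ⟨fun ⟨h, e⟩ => ⟨w' ≫ h, by rw [res_comp, e, ← res_comp, hg]⟩, fun ⟨h, e⟩ => ?_⟩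
  obtain ⟨U, hU⟩ := A.locus i _ (res G (ptHom T p) x)
  have h1 := (hU w').1 ⟨h, by rw [e, ← res_comp, hg]⟩
  have h2 : Set.range (𝟙 (ptObj T p) : _ ⟶ _).left ⊆ (U : Set (Spec (T.left.residueField p))) := by
    rintro _ ⟨r, rfl⟩
    have hr := h1 ⟨IsLocalRing.closedPoint K, rfl⟩
    rwa [Subsingleton.elim (α := Spec (T.left.residueField p))
      ((𝟙 (ptObj T p) : _ ⟶ _).left r) (w'.left (IsLocalRing.closedPoint K))]
  obtain ⟨h', e'⟩ := (hU (𝟙 _)).2 h2
  exact ⟨h', e'.trans (res_id G _)⟩

/-- Uniqueness for every test object. -/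
lemma inj' (i : A.I) {T : Over S} (g g' : T ⟶ A.X i)
    (h : res G g (A.sec i) = res G g' (A.sec i)) : g = g' := by
  refine Over.OverMorphism.ext (T.left.affineCover.hom_ext _ _ fun j => ?_)
  exact congrArg CommaMorphism.left (A.inj i (pieceHom T j ≫ g) (pieceHom T j ≫ g')
    (by rw [res_comp, res_comp, h]))

/-- A test object all of whose points lift is in the chart. -/
lemma exists_lift (hsep : Separated G) (i : A.I) {T : Over S} (x : G.obj (op T))
    (hx : ∀ p, A.Lifts i x p) : ∃ h : T ⟶ A.X i, res G h (A.sec i) = x := by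
  have hloc : ∀ j, ∃ h : piece T j ⟶ A.X i, res G h (A.sec i) = res G (pieceHom T j) x := by
    intro j
    obtain ⟨U, hU⟩ := A.locus i _ (res G (pieceHom T j) x)
    have h1 : Set.range (𝟙 (piece T j) : _ ⟶ _).left ⊆ SetLike.coe U := by
      rintro q -
      obtain ⟨h, e⟩ := (A.lifts_iff i x _ (ptHom (piece T j) q ≫ pieceHom T j)
        (IsLocalRing.closedPoint _)).1 (hx _)
      refine (hU (ptHom (piece T j) q)).1 ⟨h, e.trans (res_comp G _ _ _)⟩ ⟨IsLocalRing.closedPoint _, ?_⟩
      exact Scheme.fromSpecResidueField_apply _ _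
    obtain ⟨h, e⟩ := (hU (𝟙 _)).2 h1
    exact ⟨h, e.trans (res_id G _)⟩
  choose h hh using hloc
  let f : ∀ j, T.left.affineCover.X j ⟶ (A.X i).left := fun j => (h j).left
  have hf : ∀ j j', pullback.fst (T.left.affineCover.f j) (T.left.affineCover.f j') ≫ f j =
      pullback.snd _ _ ≫ f j' := fun j j' => by
    let V : Over S := Over.mk
      (pullback.fst (T.left.affineCover.f j) (T.left.affineCover.f j') ≫ (piece T j).hom)
    let a : V ⟶ piece T j :=
      Over.homMk (pullback.fst (T.left.affineCover.f j) (T.left.affineCover.f j')) rfl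
    let b : V ⟶ piece T j' :=
      Over.homMk (pullback.snd (T.left.affineCover.f j) (T.left.affineCover.f j')) (by
        show _ ≫ T.left.affineCover.f j' ≫ T.hom = _ ≫ T.left.affineCover.f j ≫ T.hom
        rw [← Category.assoc, ← Category.assoc, pullback.condition])
    have hab : a ≫ pieceHom T j = b ≫ pieceHom T j' := Over.OverMorphism.ext pullback.condition
    exact congrArg CommaMorphism.left (A.inj' i (a ≫ h j) (b ≫ h j')
      (by rw [res_comp, res_comp, hh, hh, ← res_comp, ← res_comp, hab]))
  have hw : T.left.affineCover.glueMorphisms f hf ≫ (A.X i).hom = T.hom :=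
    T.left.affineCover.hom_ext _ _ fun j => by
      rw [← Category.assoc, Scheme.Cover.ι_glueMorphisms]
      exact Over.w (h j)
  refine ⟨Over.homMk _ hw, hsep T (fun j => piece T j) (fun j => pieceHom T j)
    (fun j => inferInstanceAs (IsOpenImmersion (T.left.affineCover.f j)))
    (fun p => ⟨_, T.left.affineCover.covers p⟩) _ _ fun j => ?_⟩
  rw [← res_comp, ← hh j]
  congr 1
  exact Over.OverMorphism.ext (T.left.affineCover.ι_glueMorphisms f hf j)

/-- The locus is open. -/
lemma isOpen_lifts (i : A.I) {T : Over S} (x : G.obj (op T)) :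
    IsOpen {p | A.Lifts i x p} := by
  rw [isOpen_iff_forall_mem_open]
  intro p hp
  obtain ⟨j, q, hq⟩ : ∃ j q, T.left.affineCover.f j q = p :=
    ⟨_, T.left.affineCover.covers p⟩
  obtain ⟨U, hU⟩ := A.locus i _ (res G (pieceHom T j) x)
  have key : ∀ r, r ∈ U ↔ A.Lifts i x (T.left.affineCover.f j r) := by
    intro r
    rw [show T.left.affineCover.f j r =
        (ptHom (piece T j) r ≫ pieceHom T j).left (IsLocalRing.closedPoint _) from
      congrArg (T.left.affineCover.f j) (Scheme.fromSpecResidueField_apply r _).symm]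
    refine Iff.trans ?_ (A.lifts_iff i x _ (ptHom (piece T j) r ≫ pieceHom T j) _).symm
    simp_rw [res_comp]
    refine Iff.trans ?_ (hU (ptHom (piece T j) r)).symm
    constructor
    · rintro hr _ ⟨t, rfl⟩
      exact (Scheme.fromSpecResidueField_apply r t).symm ▸ hr
    · intro h
      exact h ⟨IsLocalRing.closedPoint _, Scheme.fromSpecResidueField_apply r _⟩
  refine ⟨T.left.affineCover.f j '' SetLike.coe U, ?_,
    (T.left.affineCover.f j).isOpenEmbedding.isOpenMap _ U.2, q, ?_, hq⟩
  · rintro _ ⟨r, hr, rfl⟩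
    exact (key r).1 hr
  · exact (key q).2 (hq ▸ hp)

/-- The atlas on all test objects. -/
def toAtlas (hsep : Separated G) : Atlas G where
  I := A.I
  X := A.X
  sec := A.sec
  inj i _ g g' h := A.inj' i g g' h
  locus i T x := by
    refine ⟨⟨{p | A.Lifts i x p}, A.isOpen_lifts i x⟩, fun {T'} g => ⟨?_, fun hr => ?_⟩⟩
    · rintro ⟨h, e⟩ _ ⟨p, rfl⟩
      have hp : (ptHom T' p ≫ g).left (IsLocalRing.closedPoint _) = g.left p :=
        congrArg g.left (Scheme.fromSpecResidueField_apply p _)
      rw [← hp]
      exact (A.lifts_iff i x _ _ _).2 ⟨ptHom T' p ≫ h, by rw [res_comp, e, ← res_comp]; rfl⟩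
    · refine A.exists_lift hsep i _ fun p => ?_
      have hp : (ptHom T' p ≫ g).left (IsLocalRing.closedPoint _) = g.left p :=
        congrArg g.left (Scheme.fromSpecResidueField_apply p _)
      obtain ⟨h, e⟩ := (A.lifts_iff i x _ _ _).1 (hp.symm ▸ hr ⟨p, rfl⟩ : A.Lifts i x _)
      exact ⟨h, e.trans (res_comp G _ _ _)⟩
  cover {T} x p := by
    obtain ⟨i, h, e⟩ := A.cover _ _ (res G (ptHom T p) x)
    let U : T.left.Opens := ⟨{q | A.Lifts i x q}, A.isOpen_lifts i x⟩
    refine ⟨i, openObj T U, openHom T U, ⟨⟨p, ⟨h, e⟩⟩, rfl⟩, A.exists_lift hsep i _ fun q => ?_⟩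
    have hq : (ptHom (openObj T U) q ≫ openHom T U).left (IsLocalRing.closedPoint _) = q.1 :=
      congrArg U.ι (Scheme.fromSpecResidueField_apply q _)
    obtain ⟨h', e'⟩ := (A.lifts_iff i x _ _ _).1 (hq.symm ▸ q.2 : A.Lifts i x _)
    exact ⟨h', e'.trans (res_comp G _ _ _)⟩

end AffineAtlas

end Abstract

variable {R : Type u} [CommRing R] {C : Scheme.{u}} {c : C ⟶ Spec (CommRingCat.of R)}
  {ε : SchemeHomOver (𝟙 (Spec (CommRingCat.of R))) c}

/-- Affine charts for a Picard condition, in terms of bundles. -/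
structure PicAffineAtlas (P : SubPicCondition c ε) where
  /-- the index type -/
  I : Type u
  /-- the rings of the charts -/
  A : I → CommRingCat.{u}
  /-- their structure maps -/
  a : ∀ i, Spec (A i) ⟶ Spec (CommRingCat.of R)
  /-- the charts are of finite presentation -/
  lofp : ∀ i, LocallyOfFinitePresentation (a i)
  /-- the bundles -/
  M : ∀ i, RigidifiedLineBundle c ε (a i)
  /-- they satisfy the condition -/
  mem : ∀ i, P.P _ (M i)
  /-- uniqueness on affine test objects -/
  inj : ∀ (i : I) {A' : CommRingCat.{u}} {a' : Spec A' ⟶ Spec (CommRingCat.of R)}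
    (g g' : SchemeHomOver a' (a i)),
    Nonempty (((M i).pullbackAlong g).L ≅ ((M i).pullbackAlong g').L) → g = g'
  /-- open loci on affine test objects, universal among affine ones -/
  locus : ∀ (i : I) {B : CommRingCat.{u}} (b : Spec B ⟶ Spec (CommRingCat.of R))
    (N : RigidifiedLineBundle c ε b), P.P b N → ∃ U : (Spec B).Opens,
      ∀ {B' : CommRingCat.{u}} {b' : Spec B' ⟶ Spec (CommRingCat.of R)} (g : SchemeHomOver b' b),
        (∃ h : SchemeHomOver b' (a i),
          Nonempty (((M i).pullbackAlong h).L ≅ (N.pullbackAlong g).L)) ↔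
          Set.range g.1 ⊆ (U : Set (Spec B))
  /-- every point over a field is in some chart -/
  cover : ∀ (K : Type u) [Field K] (s : Spec (CommRingCat.of K) ⟶ Spec (CommRingCat.of R))
    (N : RigidifiedLineBundle c ε s), P.P s N →
      ∃ (i : I) (h : SchemeHomOver s (a i)), Nonempty (((M i).pullbackAlong h).L ≅ N.L)

variable {P : SubPicCondition c ε}

/-- A morphism over the base as a morphism in the over category. -/
abbrev overHom {T T' : Scheme.{u}} {t : T ⟶ Spec (CommRingCat.of R)}
    {t' : T' ⟶ Spec (CommRingCat.of R)} (g : SchemeHomOver t' t) : Over.mk t' ⟶ Over.mk t :=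
  Over.homMk g.1 g.2

/-- The affine atlas of the presheaf. -/
def PicAffineAtlas.toAffineAtlas (A : PicAffineAtlas P) : AffineAtlas (subPresheaf P) where
  I := A.I
  X i := Over.mk (A.a i)
  sec i := ⟨Quotient.mk _ (A.M i), A.mem i⟩
  inj i _ _ g g' h := by
    have h1 := A.inj i (homOver g) (homOver g') ((res_mk_eq_iff g g' _ _ _ _).1 h)
    exact Over.OverMorphism.ext (congrArg Subtype.val h1)
  locus i _ a x := by
    obtain ⟨x, hx⟩ := x
    induction x using Quotient.ind with
    | _ N =>
      obtain ⟨U, hU⟩ := A.locus i a N hx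
      exact ⟨U, fun g => ⟨fun ⟨h, e⟩ => (hU (homOver g)).1
          ⟨homOver h, (res_mk_eq_iff h g _ _ _ _).1 e⟩,
        fun hr => ((hU (homOver g)).2 hr).elim fun h e =>
          ⟨overHom h, (res_mk_eq_iff (overHom h) g _ _ _ _).2 e⟩⟩⟩
  cover K _ s x := by
    obtain ⟨x, hx⟩ := x
    induction x using Quotient.ind with
    | _ N =>
      obtain ⟨i, h, e⟩ := A.cover K s N hx
      exact ⟨i, overHom h, Subtype.ext (Quotient.sound e)⟩

/-- **Representability from gluing and affine charts**, by an object locally of finite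
presentation. -/
theorem exists_representsRelSubPic_of_affineAtlas
    (hsep : SeparatedOpens (relPicardPresheaf c ε))
    (hglue : GluesOpens (relPicardPresheaf c ε)) (hP : IsLocalCondition P) (A : PicAffineAtlas P) :
    ∃ D : RelativePic0Designation R c, Nonempty (RepresentsRelSubPic c ε P D) ∧
      LocallyOfFinitePresentation D.toBase := by
  have hs := (separatedOpens_sub P hsep).separated
  have hg := (gluesOpens_sub P hglue hP).glues
  let B := A.toAffineAtlas.toAtlas hs
  have hlofp : LocallyOfFinitePresentation B.obj.hom := by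
    refine IsZariskiLocalAtSource.of_openCover B.glueData.openCover fun i => ?_
    have e : B.glueData.ι i ≫ B.obj.hom = A.a i := Over.w (B.ι i)
    exact e ▸ A.lofp i
  obtain ⟨y, hy⟩ : ∃ y, y = (B.universal hg).1 := ⟨_, rfl⟩
  obtain ⟨M, rfl⟩ := Quotient.exists_rep y
  have hM : P.P B.obj.hom M := by
    have h := (B.universal hg).2
    rw [← hy] at h
    exact h
  have hu : (⟨Quotient.mk _ M, hM⟩ : (subPresheaf P).obj (op B.obj)) = B.universal hg :=
    Subtype.ext hy
  have huniv' : ∀ {T : Scheme.{u}} (t : T ⟶ Spec (CommRingCat.of R))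
      (N : RigidifiedLineBundle c ε t), P.P t N →
      ∃! g : SchemeHomOver t B.obj.hom, Nonempty ((M.pullbackAlong g).L ≅ N.L) := by
    intro T t N hN
    obtain ⟨g, e⟩ := B.exists_classifying hs hg
      (⟨Quotient.mk _ N, hN⟩ : (subPresheaf P).obj (op (Over.mk t)))
    rw [← hu] at e
    refine ⟨homOver g, Quotient.exact (congrArg Subtype.val e), fun g' e' => ?_⟩
    have h := B.classifying_unique hg (Over.homMk g'.1 g'.2) g (by
      rw [← hu]; exact (Subtype.ext (Quotient.sound e')).trans e.symm)
    rw [← h]; rfl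
  obtain ⟨z, hz, -⟩ := huniv' (𝟙 _) (RigidifiedLineBundle.unit (𝟙 _)) (P.unit_mem _)
  exact ⟨⟨B.obj.left, B.obj.hom, z.1, z.2⟩,
    ⟨⟨M, hM, fun t N hN => huniv' t N hN, hz⟩⟩, hlofp⟩

end Fermat.Agent.Row24

end
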