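import Fermat.Agent.Row24.Atlas.Affine
import Fermat.Agent.Row24.Cond.Fibre
import Fermat.Agent.Row24.Dict.Interface
import Fermat.Agent.Row24.Chart.Point

/-!
# The affine atlas of the charts

Twists over the ground field and the theory of a chart give, through a dictionary, an affine atlas
of every pointwise condition which is covered by charts and constant on them.
-/

set_option autoImplicit false

universe u

open CategoryTheory AlgebraicGeometry AlgebraicGeometry.RelPicard NeronModelInfra

noncomputable section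

namespace Fermat.Agent.Row24

open Chart Dict

variable {k : Type u} [Field k] (R : CurveRings k)

/-- What the atlas uses of the twists over the ground field. -/
structure TwistTheory where
  /-- the twists -/
  Tw : Type u
  /-- twisting -/
  twist : ∀ {A : Type u} [CommRing A] [Algebra k A], Glued R A → Tw → Glued R A
  /-- the inverse twist -/
  inv : Tw → Tw
  twist_inv : ∀ {A : Type u} [CommRing A] [Algebra k A] (M : Glued R A) (D : Tw),
    Nonempty (Glued.Iso (twist (twist M D) (inv D)) M)
  inv_twist : ∀ {A : Type u} [CommRing A] [Algebra k A] (M : Glued R A) (D : Tw),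
    Nonempty (Glued.Iso (twist (twist M (inv D)) D) M)
  iso : ∀ {A : Type u} [CommRing A] [Algebra k A] {M M' : Glued R A} (D : Tw),
    Glued.Iso M M' → Nonempty (Glued.Iso (twist M D) (twist M' D))
  hom : ∀ {A A' : Type u} [CommRing A] [Algebra k A] [CommRing A'] [Algebra k A']
    {φ : A →ₐ[k] A'} {M : Glued R A} {M' : Glued R A'} (D : Tw),
    Glued.Hom φ M M' → Nonempty (Glued.Hom φ (twist M D) (twist M' D))
  rigid : ∀ {A : Type u} [CommRing A] [Algebra k A] {M : Glued R A} (D : Tw),
    M.Rigid → (twist M D).Rigid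

/-- What the atlas uses of one chart. -/
structure ChartTheory (b : Fin R.g → R.B1) where
  cond_hom : ∀ {A A' : Type u} [CommRing A] [Algebra k A] [CommRing A'] [Algebra k A']
    {φ : A →ₐ[k] A'} {M : Glued R A} {M' : Glued R A'},
    Glued.Hom φ M M' → M.ChartCond b → M'.ChartCond b
  /-- the point of a bundle in the chart -/
  point : ∀ {A : Type u} [CommRing A] [Algebra k A] (M : Glued R A),
    M.ChartCond b → CyclicPt k b A
  point_hom : ∀ {A A' : Type u} [CommRing A] [Algebra k A] [CommRing A'] [Algebra k A']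
    {φ : A →ₐ[k] A'} {M : Glued R A} {M' : Glued R A'},
    Glued.Hom φ M M' → ∀ (h : M.ChartCond b) (h' : M'.ChartCond b),
      point M' h' = (point M h).map φ
  iso_of_point_eq : ∀ {A : Type u} [CommRing A] [Algebra k A] {M M' : Glued R A}
    (h : M.ChartCond b) (h' : M'.ChartCond b),
    point M h = point M' h' → Nonempty (Glued.Iso M M')
  exists_locus : ∀ {A : Type u} [CommRing A] [Algebra k A] (M : Glued R A), M.Rigid →
    ∃ U : Set (PrimeSpectrum A), IsOpen U ∧ ∀ {A' : Type u} [CommRing A'] [Algebra k A']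
      {φ : A →ₐ[k] A'} {M' : Glued R A'}, Glued.Hom φ M M' →
      (M'.ChartCond b ↔ Set.range (PrimeSpectrum.comap φ.toRingHom) ⊆ U)
  /-- the open subset of the chart ring filled by the chart -/
  W : Set (PrimeSpectrum (ChartRing k b))
  isOpen_W : IsOpen W
  mem_W : ∀ {A : Type u} [CommRing A] [Algebra k A] (M : Glued R A) (h : M.ChartCond b),
    Set.range (PrimeSpectrum.comap (classifyPt (point M h)).toRingHom) ⊆ W
  exists_universal : ∀ f : ChartRing k b, (PrimeSpectrum.basicOpen f : Set _) ⊆ W →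
    ∃ (M : Glued R (Localization.Away f)) (h : M.ChartCond b),
      classifyPt (point M h) = IsScalarTower.toAlgHom k (ChartRing k b) (Localization.Away f)

variable {R} {C : Scheme.{u}} {c : C ⟶ Spec (CommRingCat.of k)}
  {ε : SchemeHomOver (𝟙 (Spec (CommRingCat.of k))) c}

/-- A morphism between spectra over `k` comes from a map of algebras. -/
theorem exists_eq_affHom {A A' : Type u} [CommRing A] [Algebra k A] [CommRing A'] [Algebra k A']
    (g : SchemeHomOver (affStr k A') (affStr k A)) : ∃ φ : A →ₐ[k] A', g = affHom φ := by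
  obtain ⟨ψ, hψ⟩ := Spec.map_surjective g.1
  have h := g.2
  rw [← hψ, ← Spec.map_comp] at h
  have h' := congrArg CommRingCat.Hom.hom (Spec.map_injective h)
  exact ⟨{ ψ.hom with commutes' := fun a => RingHom.congr_fun h' a }, Subtype.ext hψ.symm⟩

theorem nonempty_pullbackAlong_affHom_comp {A A' A'' : Type u} [CommRing A] [Algebra k A]
    [CommRing A'] [Algebra k A'] [CommRing A''] [Algebra k A'']
    (N : RigidifiedLineBundle c ε (affStr k A)) (φ : A →ₐ[k] A') (ψ : A' →ₐ[k] A'') :
    Nonempty (((N.pullbackAlong (affHom φ)).pullbackAlong (affHom ψ)).L ≅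
      (N.pullbackAlong (affHom (ψ.comp φ))).L) :=
  nonempty_pullbackAlong_iso N (affHom φ) (affHom ψ) (affHom (ψ.comp φ)) (by
    rw [affHom_coe, affHom_coe, affHom_coe, ← Spec.map_comp]
    rfl)

theorem nonempty_pullbackAlong_affHom_id {A : Type u} [CommRing A] [Algebra k A]
    (N : RigidifiedLineBundle c ε (affStr k A)) :
    Nonempty ((N.pullbackAlong (affHom (AlgHom.id k A))).L ≅ N.L) := by
  have e : baseChangeSnd c (affHom (AlgHom.id k A)) = 𝟙 (Limits.pullback c (affStr k A)) := by
    have h : affHom (AlgHom.id k A) =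
        (⟨𝟙 _, Category.id_comp _⟩ : SchemeHomOver (affStr k A) (affStr k A)) :=
      Subtype.ext (Spec.map_id _)
    rw [h]
    apply Limits.pullback.hom_ext <;> simp [baseChangeSnd]
  exact ⟨(Scheme.Modules.pullbackCongr e).app N.L ≪≫ (Scheme.Modules.pullbackId _).app N.L⟩

theorem map_map_pt {B : Type u} [CommRing B] [Algebra k B] {g : ℕ} {b : Fin g → B}
    {A A' A'' : Type u} [CommRing A] [Algebra k A] [CommRing A'] [Algebra k A'] [CommRing A'']
    [Algebra k A''] (P : CyclicPt k b A) (φ : A →ₐ[k] A') (ψ : A' →ₐ[k] A'') :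
    (P.map φ).map ψ = P.map (ψ.comp φ) := by
  refine CyclicPt.ext (AlgHom.ext fun z => ?_) rfl
  exact Matrix.ext fun i j => rfl

theorem classifyPt_map_pt {B : Type u} [CommRing B] [Algebra k B] {g : ℕ} {b : Fin g → B}
    {A A' : Type u} [CommRing A] [Algebra k A] [CommRing A'] [Algebra k A']
    (P : CyclicPt k b A) (φ : A →ₐ[k] A') :
    classifyPt (P.map φ) = φ.comp (classifyPt P) := by
  conv_lhs => rw [← map_classifyPt P, map_map_pt]
  exact classifyPt_map _

namespace ChartAtlas

variable (Δ : Dictionary c ε R) (T : TwistTheory R) (H : ∀ b, ChartTheory R b)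
variable (D : T.Tw) (b : Fin R.g → R.B1)
variable {A A' : Type u} [CommRing A] [Algebra k A] [CommRing A'] [Algebra k A']

/-- The twisted glued module of a bundle. -/
abbrev tw (N : RigidifiedLineBundle c ε (affStr k A)) : Glued R A := T.twist (Δ.glued A N) D

/-- The bundle lies in the chart `(D, b)`. -/
def InChart (N : RigidifiedLineBundle c ε (affStr k A)) : Prop := (tw Δ T D N).ChartCond b

/-- The classifying map of a bundle in the chart. -/
def cl (N : RigidifiedLineBundle c ε (affStr k A)) (h : InChart Δ T D b N) :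
    ChartRing k b →ₐ[k] A :=
  classifyPt ((H b).point _ h)

/-- The bundle lies in the basic open chart `(D, b, f)`. -/
def Good (f : ChartRing k b) (N : RigidifiedLineBundle c ε (affStr k A)) : Prop :=
  ∃ h : InChart Δ T D b N, IsUnit (cl Δ T H D b N h f)

variable {Δ T D b}

include H in
theorem inChart_pull {N : RigidifiedLineBundle c ε (affStr k A)} (h : InChart Δ T D b N)
    (φ : A →ₐ[k] A') : InChart Δ T D b (N.pullbackAlong (affHom φ)) :=
  (H b).cond_hom (T.hom D (Δ.nonempty_hom A A' φ N).some).some h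

theorem cl_pull {N : RigidifiedLineBundle c ε (affStr k A)} (h : InChart Δ T D b N)
    (φ : A →ₐ[k] A') (h' : InChart Δ T D b (N.pullbackAlong (affHom φ))) :
    cl Δ T H D b _ h' = φ.comp (cl Δ T H D b N h) := by
  rw [cl, cl, (H b).point_hom (T.hom D (Δ.nonempty_hom A A' φ N).some).some h h',
    classifyPt_map_pt]

theorem nonempty_twIso {N N' : RigidifiedLineBundle c ε (affStr k A)}
    (e : Nonempty (N.L ≅ N'.L)) : Nonempty (Glued.Iso (tw Δ T D N) (tw Δ T D N')) :=
  T.iso D ((Δ.iso_iff A N N').2 e).some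

include H in
theorem inChart_congr {N N' : RigidifiedLineBundle c ε (affStr k A)}
    (e : Nonempty (N.L ≅ N'.L)) (h : InChart Δ T D b N) : InChart Δ T D b N' :=
  (H b).cond_hom (nonempty_twIso e).some.toHom h

theorem cl_congr {N N' : RigidifiedLineBundle c ε (affStr k A)} (e : Nonempty (N.L ≅ N'.L))
    (h : InChart Δ T D b N) (h' : InChart Δ T D b N') :
    cl Δ T H D b N' h' = cl Δ T H D b N h := by
  rw [cl, (H b).point_hom (nonempty_twIso e).some.toHom h h', classifyPt_map_pt, AlgHom.id_comp]
  rfl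

theorem iso_of_cl_eq {N N' : RigidifiedLineBundle c ε (affStr k A)} (h : InChart Δ T D b N)
    (h' : InChart Δ T D b N') (e : cl Δ T H D b N h = cl Δ T H D b N' h') :
    Nonempty (N.L ≅ N'.L) := by
  have hp : (H b).point _ h = (H b).point _ h' := by
    rw [← map_classifyPt ((H b).point _ h), ← map_classifyPt ((H b).point _ h')]
    exact congrArg (universalPt k b).map e
  obtain ⟨i⟩ := (H b).iso_of_point_eq h h' hp
  exact (Δ.iso_iff A N N').1
    ⟨((T.twist_inv _ D).some.symm.trans (T.iso (T.inv D) i).some).trans (T.twist_inv _ D).some⟩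

variable {f : ChartRing k b}

theorem good_congr {N N' : RigidifiedLineBundle c ε (affStr k A)} (e : Nonempty (N.L ≅ N'.L))
    (h : Good Δ T H D b f N) : Good Δ T H D b f N' := by
  obtain ⟨h, hu⟩ := h
  exact ⟨inChart_congr H e h, by rw [cl_congr H e h]; exact hu⟩

theorem good_pull {N : RigidifiedLineBundle c ε (affStr k A)} (h : Good Δ T H D b f N)
    (φ : A →ₐ[k] A') : Good Δ T H D b f (N.pullbackAlong (affHom φ)) := by
  obtain ⟨h, hu⟩ := h
  exact ⟨inChart_pull H h φ, by rw [cl_pull H h φ]; exact hu.map φ⟩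

include H in
theorem inChart_pull_field_iff {K K' : Type u} [Field K] [Algebra k K] [Field K'] [Algebra k K']
    (N : RigidifiedLineBundle c ε (affStr k K)) (φ : K →ₐ[k] K') :
    InChart Δ T D b (N.pullbackAlong (affHom φ)) ↔ InChart Δ T D b N := by
  obtain ⟨U, -, hU⟩ := (H b).exists_locus (tw Δ T D N) (T.rigid D (Δ.rigid K N))
  refine ⟨fun h => ?_, fun h => inChart_pull H h φ⟩
  refine (hU (Glued.Iso.refl (tw Δ T D N)).toHom).2 ?_
  rintro p -
  exact (hU (T.hom D (Δ.nonempty_hom K K' φ N).some).some).1 h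
    ⟨Classical.arbitrary _, Subsingleton.elim _ _⟩

theorem good_pull_field_iff {K K' : Type u} [Field K] [Algebra k K] [Field K'] [Algebra k K']
    (N : RigidifiedLineBundle c ε (affStr k K)) (φ : K →ₐ[k] K') :
    Good Δ T H D b f (N.pullbackAlong (affHom φ)) ↔ Good Δ T H D b f N := by
  refine ⟨fun ⟨h, hu⟩ => ?_, fun h => good_pull H h φ⟩
  have h0 := (inChart_pull_field_iff H N φ).1 h
  refine ⟨h0, isUnit_iff_ne_zero.2 fun e => hu.ne_zero ?_⟩
  rw [cl_pull H h0 φ h, AlgHom.comp_apply, e, map_zero]

/-- The residue field at a point, over `k`. -/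
abbrev res (p : PrimeSpectrum A) : A →ₐ[k] p.asIdeal.ResidueField :=
  IsScalarTower.toAlgHom k A _

theorem good_iff_forall (N : RigidifiedLineBundle c ε (affStr k A)) :
    Good Δ T H D b f N ↔ ∀ p : PrimeSpectrum A, Good Δ T H D b f (N.pullbackAlong (affHom (res p))) := by
  refine ⟨fun h p => good_pull H h _, fun h => ?_⟩
  obtain ⟨U, -, hU⟩ := (H b).exists_locus (tw Δ T D N) (T.rigid D (Δ.rigid A N))
  have hN : InChart Δ T D b N := by
    refine (hU (Glued.Iso.refl (tw Δ T D N)).toHom).2 ?_
    rintro _ ⟨p, rfl⟩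
    refine (hU (T.hom D (Δ.nonempty_hom A _ (res p) N).some).some).1 (h p).1 ⟨Classical.arbitrary _, ?_⟩
    refine PrimeSpectrum.ext ?_
    have hbot : (Classical.arbitrary (PrimeSpectrum p.asIdeal.ResidueField)).asIdeal = ⊥ :=
      (Ideal.IsPrime.ne_top inferInstance |> (Ideal.eq_bot_or_top _).resolve_right)
    rw [PrimeSpectrum.comap_asIdeal, hbot]
    exact (Ideal.ker_algebraMap_residueField p.asIdeal).trans (Ideal.comap_id _).symm
  refine ⟨hN, by_contra fun hu => ?_⟩
  obtain ⟨m, hm, hem⟩ := exists_max_ideal_of_mem_nonunits hu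
  obtain ⟨h', hu'⟩ := h ⟨m, hm.isPrime⟩
  rw [cl_pull H hN (res ⟨m, hm.isPrime⟩) h'] at hu'
  exact hu'.ne_zero (Ideal.algebraMap_residueField_eq_zero.2 hem)

/-- The map of residue fields along an algebra map. -/
def resMap (φ : A →ₐ[k] A') (q : PrimeSpectrum A') :
    (PrimeSpectrum.comap φ.toRingHom q).asIdeal.ResidueField →ₐ[k] q.asIdeal.ResidueField where
  __ := Ideal.ResidueField.map _ q.asIdeal φ.toRingHom rfl
  commutes' a := by
    rw [IsScalarTower.algebraMap_apply k A (PrimeSpectrum.comap φ.toRingHom q).asIdeal.ResidueField,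
      IsScalarTower.algebraMap_apply k A' q.asIdeal.ResidueField]
    exact (Ideal.ResidueField.map_algebraMap _ _ _ rfl _).trans
      (congrArg _ (φ.commutes a))

theorem resMap_comp (φ : A →ₐ[k] A') (q : PrimeSpectrum A') :
    (resMap φ q).comp (res (PrimeSpectrum.comap φ.toRingHom q)) = (res q).comp φ :=
  AlgHom.ext fun _ => Ideal.ResidueField.map_algebraMap _ _ _ rfl _

/-- The points of the base whose fibre lies in the chart. -/
def goodSet (f : ChartRing k b) (N : RigidifiedLineBundle c ε (affStr k A)) :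
    Set (PrimeSpectrum A) :=
  {p | Good Δ T H D b f (N.pullbackAlong (affHom (res p)))}

theorem mem_goodSet_comap (N : RigidifiedLineBundle c ε (affStr k A)) (φ : A →ₐ[k] A')
    (q : PrimeSpectrum A') :
    Good Δ T H D b f ((N.pullbackAlong (affHom φ)).pullbackAlong (affHom (res q))) ↔
      PrimeSpectrum.comap φ.toRingHom q ∈ goodSet (Δ := Δ) H (D := D) f N := by
  obtain ⟨e⟩ := nonempty_pullbackAlong_affHom_comp N φ (res q)
  obtain ⟨e'⟩ := nonempty_pullbackAlong_affHom_comp N (res (PrimeSpectrum.comap φ.toRingHom q))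
    (resMap φ q)
  rw [resMap_comp] at e'
  refine Iff.trans ⟨fun h => ?_, fun h => ?_⟩ (good_pull_field_iff H _ (resMap φ q))
  · exact good_congr H ⟨e ≪≫ e'.symm⟩ h
  · exact good_congr H ⟨e' ≪≫ e.symm⟩ h

theorem good_pull_iff (N : RigidifiedLineBundle c ε (affStr k A)) (φ : A →ₐ[k] A') :
    Good Δ T H D b f (N.pullbackAlong (affHom φ)) ↔
      Set.range (PrimeSpectrum.comap φ.toRingHom) ⊆ goodSet (Δ := Δ) H (D := D) f N := by
  rw [good_iff_forall, Set.range_subset_iff]
  exact forall_congr' fun q => mem_goodSet_comap H N φ q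

theorem isOpen_goodSet (N : RigidifiedLineBundle c ε (affStr k A)) :
    IsOpen (goodSet (Δ := Δ) H (D := D) f N) := by
  rw [isOpen_iff_forall_mem_open]
  intro p hp
  obtain ⟨U, hUo, hU⟩ := (H b).exists_locus (tw Δ T D N) (T.rigid D (Δ.rigid A N))
  have hpU : p ∈ U := by
    refine (hU (T.hom D (Δ.nonempty_hom A _ (res p) N).some).some).1 hp.1
      ⟨Classical.arbitrary _, PrimeSpectrum.ext ?_⟩
    have hbot : (Classical.arbitrary (PrimeSpectrum p.asIdeal.ResidueField)).asIdeal = ⊥ :=
      (Ideal.IsPrime.ne_top inferInstance |> (Ideal.eq_bot_or_top _).resolve_right)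
    rw [PrimeSpectrum.comap_asIdeal, hbot]
    exact Ideal.ker_algebraMap_residueField p.asIdeal
  obtain ⟨_, ⟨a, rfl⟩, hpa, haU⟩ :=
    PrimeSpectrum.isTopologicalBasis_basic_opens.isOpen_iff.1 hUo p hpU
  let φ : A →ₐ[k] Localization.Away a := IsScalarTower.toAlgHom k A _
  have hc : InChart Δ T D b (N.pullbackAlong (affHom φ)) := by
    refine (hU (T.hom D (Δ.nonempty_hom A _ φ N).some).some).2 fun q hq => haU ?_
    exact (PrimeSpectrum.localization_away_comap_range (Localization.Away a) a).le hq
  set e := cl Δ T H D b _ hc f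
  have key : ∀ q, PrimeSpectrum.comap φ.toRingHom q ∈ goodSet (Δ := Δ) H (D := D) f N ↔ e ∉ q.asIdeal := by
    intro q
    rw [← mem_goodSet_comap, ← Ideal.algebraMap_residueField_eq_zero.not]
    constructor
    · rintro ⟨h', hu⟩
      rw [cl_pull H hc (res q) h'] at hu
      exact hu.ne_zero
    · intro hne
      exact ⟨inChart_pull H hc _, by rw [cl_pull H hc (res q)]; exact isUnit_iff_ne_zero.2 hne⟩
  refine ⟨PrimeSpectrum.comap φ.toRingHom '' PrimeSpectrum.basicOpen e, ?_, ?_, ?_⟩
  · rintro _ ⟨q, hq, rfl⟩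
    exact (key q).2 hq
  · exact (PrimeSpectrum.localization_away_isOpenEmbedding (Localization.Away a) a).isOpenMap _
      (PrimeSpectrum.basicOpen e).2
  · obtain ⟨q, rfl⟩ : p ∈ Set.range (PrimeSpectrum.comap φ.toRingHom) :=
      (PrimeSpectrum.localization_away_comap_range (Localization.Away a) a).ge hpa
    exact ⟨q, (key q).1 hp, rfl⟩

/-- **Points of a basic open chart.** -/
theorem exists_lift_iff {M : RigidifiedLineBundle c ε (affStr k (Localization.Away f))}
    (hM : InChart Δ T D b M)
    (hcl : cl Δ T H D b M hM = IsScalarTower.toAlgHom k (ChartRing k b) (Localization.Away f))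
    (N : RigidifiedLineBundle c ε (affStr k A)) :
    (∃ χ : Localization.Away f →ₐ[k] A, Nonempty ((M.pullbackAlong (affHom χ)).L ≅ N.L)) ↔
      Good Δ T H D b f N := by
  constructor
  · rintro ⟨χ, e⟩
    refine good_congr H e (good_pull H ⟨hM, ?_⟩ χ)
    rw [hcl]
    exact IsLocalization.Away.algebraMap_isUnit f
  · rintro ⟨h, hu⟩
    let χ : Localization.Away f →ₐ[k] A :=
      IsLocalization.liftAlgHom (M := Submonoid.powers f) (S := Localization.Away f)
        (f := cl Δ T H D b N h) fun y => by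
          obtain ⟨n, hn⟩ := y.2
          rw [← hn, map_pow]
          exact hu.pow n
    refine ⟨χ, iso_of_cl_eq H (inChart_pull H hM χ) h ?_⟩
    rw [cl_pull H hM χ, hcl]
    exact AlgHom.ext fun z => IsLocalization.lift_eq _ z

theorem eq_of_pull_iso {M : RigidifiedLineBundle c ε (affStr k (Localization.Away f))}
    (hM : InChart Δ T D b M)
    (hcl : cl Δ T H D b M hM = IsScalarTower.toAlgHom k (ChartRing k b) (Localization.Away f))
    (χ χ' : Localization.Away f →ₐ[k] A)
    (e : Nonempty ((M.pullbackAlong (affHom χ)).L ≅ (M.pullbackAlong (affHom χ')).L)) : χ = χ' := by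
  have h := cl_congr H e (inChart_pull H hM χ) (inChart_pull H hM χ')
  rw [cl_pull H hM χ', cl_pull H hM χ, hcl] at h
  exact IsLocalization.algHom_ext (Submonoid.powers f) h.symm

variable (Δ T)

/-- The index of a basic open chart all whose members satisfy the condition. -/
structure Idx (Φ : PointProperty c ε) where
  /-- the twist -/
  D : T.Tw
  /-- the functions -/
  b : Fin R.g → R.B1
  /-- the equation of the basic open -/
  f : ChartRing k b
  le : (PrimeSpectrum.basicOpen f : Set _) ⊆ (H b).W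
  mem : ∀ (K : Type u) [Field K] [Algebra k K] (N : RigidifiedLineBundle c ε (affStr k K)),
    InChart Δ T D b N → Φ.holds K (affStr k K) N

theorem exists_chartBundle {D : T.Tw} {b : Fin R.g → R.B1} (f : ChartRing k b)
    (hf : (PrimeSpectrum.basicOpen f : Set _) ⊆ (H b).W) :
    ∃ (M : RigidifiedLineBundle c ε (affStr k (Localization.Away f)))
      (hM : InChart Δ T D b M),
      cl Δ T H D b M hM = IsScalarTower.toAlgHom k (ChartRing k b) (Localization.Away f) := by
  obtain ⟨U, hU, hcl⟩ := (H b).exists_universal f hf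
  obtain ⟨M, ⟨e⟩⟩ := Δ.exists_bundle _ (T.twist U (T.inv D)) (T.rigid _ hU.rigid)
  have i : Glued.Iso U (tw Δ T D M) :=
    ((T.iso D e).some.trans (T.inv_twist U D).some).symm
  refine ⟨M, (H b).cond_hom i.toHom hU, ?_⟩
  rw [cl, (H b).point_hom i.toHom hU, classifyPt_map_pt, AlgHom.id_comp, hcl]

end ChartAtlas

open ChartAtlas

variable [IsAlgClosed k] (Δ : Dictionary c ε R) (T : TwistTheory R) (H : ∀ b, ChartTheory R b)
  (Φ : PointProperty c ε)

/-- **The atlas of the charts.** -/
def picAffineAtlas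
    (hcov : ∀ (K : Type u) [Field K] [Algebra k K] (N : RigidifiedLineBundle c ε (affStr k K)),
      Φ.holds K (affStr k K) N → ∃ D b, InChart Δ T D b N ∧
        ∀ (K' : Type u) [Field K'] [Algebra k K'] (N' : RigidifiedLineBundle c ε (affStr k K')),
          InChart Δ T D b N' → Φ.holds K' (affStr k K') N') :
    PicAffineAtlas (pointCut Φ) where
  I := Idx Δ T H Φ
  A i := CommRingCat.of (Localization.Away i.f)
  a i := affStr k (Localization.Away i.f)
  lofp i := by
    have := R.finiteType_B1
    have : Algebra.FiniteType (ChartRing k i.b) (Localization.Away i.f) :=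
      IsLocalization.finiteType_of_monoid_fg (Submonoid.powers i.f) _
    have : Algebra.FiniteType k (Localization.Away i.f) :=
      Algebra.FiniteType.trans (S := ChartRing k i.b) inferInstance inferInstance
    have : Algebra.FinitePresentation k (Localization.Away i.f) :=
      Algebra.FinitePresentation.of_finiteType.1 inferInstance
    rw [HasRingHomProperty.Spec_iff (P := @LocallyOfFinitePresentation)]
    exact RingHom.finitePresentation_algebraMap.2 inferInstance
  M i := (exists_chartBundle Δ T H (D := i.D) i.f i.le).choose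
  mem i := fun K _ s => by
    obtain ⟨hM, -⟩ := (exists_chartBundle Δ T H (D := i.D) i.f i.le).choose_spec
    generalize (exists_chartBundle Δ T H (D := i.D) i.f i.le).choose = M at hM ⊢
    have key : ∀ (q : Spec (CommRingCat.of K) ⟶ Spec (CommRingCat.of k))
        (g : SchemeHomOver q (affStr k (Localization.Away i.f))),
        Φ.holds K q (M.pullbackAlong g) := by
      intro q g
      obtain ⟨inst, rfl⟩ := exists_affStr_eq q
      obtain ⟨φ, rfl⟩ := exists_eq_affHom g
      exact i.mem K _ (inChart_pull H hM φ)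
    exact key _ _
  inj i A' a' g g' h := by
    obtain ⟨hM, hcl⟩ := (exists_chartBundle Δ T H (D := i.D) i.f i.le).choose_spec
    obtain ⟨inst, rfl⟩ := exists_affStr_eq (A := A') a'
    obtain ⟨χ, rfl⟩ := exists_eq_affHom g
    obtain ⟨χ', rfl⟩ := exists_eq_affHom g'
    rw [eq_of_pull_iso H hM hcl χ χ' h]
  locus i B b N hN := by
    obtain ⟨hM, hcl⟩ := (exists_chartBundle Δ T H (D := i.D) i.f i.le).choose_spec
    obtain ⟨inst, rfl⟩ := exists_affStr_eq (A := B) b
    refine ⟨⟨goodSet (Δ := Δ) H (D := i.D) i.f N, isOpen_goodSet H N⟩, fun {B' b'} g => ?_⟩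
    obtain ⟨inst', rfl⟩ := exists_affStr_eq (A := B') b'
    obtain ⟨φ, rfl⟩ := exists_eq_affHom g
    refine Iff.trans ?_ (good_pull_iff H N φ)
    rw [← exists_lift_iff H hM hcl]
    constructor
    · rintro ⟨h, e⟩
      obtain ⟨χ, rfl⟩ := exists_eq_affHom h
      exact ⟨χ, e⟩
    · rintro ⟨χ, e⟩
      exact ⟨affHom χ, e⟩
  cover K _ s N hN := by
    obtain ⟨inst, rfl⟩ := exists_affStr_eq s
    have hK : Φ.holds K (affStr k K) N :=
      Φ.holds_congr K _ _ _ (nonempty_pullbackAlong_affHom_id N)
        (pointCut_holds Φ hN K (affHom (AlgHom.id k K)))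
    obtain ⟨D, b, hc, hD⟩ := hcov K N hK
    let p : PrimeSpectrum K := Classical.arbitrary _
    obtain ⟨_, ⟨f, rfl⟩, hpf, hfW⟩ := PrimeSpectrum.isTopologicalBasis_basic_opens.isOpen_iff.1
      (H b).isOpen_W (PrimeSpectrum.comap (cl Δ T H D b N hc).toRingHom p)
      ((H b).mem_W _ hc ⟨p, rfl⟩)
    let i : Idx Δ T H Φ := ⟨D, b, f, hfW, hD⟩
    obtain ⟨hM, hcl⟩ := (exists_chartBundle Δ T H (D := i.D) i.f i.le).choose_spec
    obtain ⟨χ, e⟩ := (exists_lift_iff H hM hcl N).2
      ⟨hc, isUnit_iff_ne_zero.2 fun e0 => hpf (show cl Δ T H D b N hc f ∈ p.asIdeal by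
        rw [e0]; exact zero_mem _)⟩
    exact ⟨i, affHom χ, e⟩

end Fermat.Agent.Row24

end
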