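import Fermat.Agent.Row24.Atlas.Chart
import Fermat.Agent.Row24.Chart.Twist

/-!
# The theory of twists

The twists of glued bundles by lattices over the ground field are a twist theory.
-/

set_option autoImplicit false

universe u

noncomputable section

namespace Fermat.Agent.Row24

open Chart

variable {k : Type u} [Field k]

/-- The twists by lattices over the ground field. -/
def twistTheory (R : CurveRings k) : TwistTheory R where
  Tw := Twist R
  twist M D := M.twist D
  inv D := D⁻¹
  twist_inv M D := ⟨M.twistInvTwist D⟩
  inv_twist M D := ⟨by simpa using M.twistInvTwist D⁻¹⟩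
  iso D e := ⟨e.twist D⟩
  hom D f := ⟨f.twist D⟩
  rigid D h := h.twist D

end Fermat.Agent.Row24

end
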