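import Fermat.Agent.Row24.Atlas.Chart
import Fermat.Agent.Row24.Euler.Constancy

/-!
# The atlas of the level set of an invariant

The covering of the bundles over fields with the value of the trivial bundle by twisted charts,
stated on glued modules, gives the atlas of the cut of the invariant.
-/

set_option autoImplicit false

universe u

open CategoryTheory AlgebraicGeometry AlgebraicGeometry.RelPicard NeronModelInfra

noncomputable section

namespace Fermat.Agent.Row24

open Chart Dict ChartAtlas

variable {k : Type u} [Field k] {R : CurveRings k} {C : Scheme.{u}}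
  {c : C ⟶ Spec (CommRingCat.of k)} {ε : SchemeHomOver (𝟙 (Spec (CommRingCat.of k))) c}

/-- A bundle over a field satisfies the invariant property iff its glued module has the value. -/
theorem invariantProperty_affStr_iff (Δ : Dictionary c ε R)
    {χ : ∀ (F : Type u) [Field F] [Algebra k F], Glued R F → ℤ} (hinv : IsFieldInvariant χ) (n₀ : ℤ)
    (hn₀ : ∀ (F : Type u) [Field F] [Algebra k F], χ F (Glued.trivial R F) = n₀)
    (K : Type u) [Field K] [inst : Algebra k K] (N : RigidifiedLineBundle c ε (affStr k K)) :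
    (invariantProperty Δ χ hinv n₀ hn₀).holds K (affStr k K) N ↔ χ K (Δ.glued K N) = n₀ := by
  have hpull : ∀ g : SchemeHomOver (affStr k K) (affStr k K), g.1 = 𝟙 _ →
      χ K (Δ.glued K (N.pullbackAlong g)) = χ K (Δ.glued K N) := by
    rintro g hg
    obtain rfl : g = affHom (AlgHom.id k K) := Subtype.ext (hg.trans (Spec.map_id _).symm)
    exact hinv.eq_of_iso Δ ⟨(nonempty_pullbackAlong_affHom_id N).some.symm⟩
  refine ⟨fun h => ?_, fun h inst' hq => ?_⟩
  · rw [← hpull (toAff K rfl) rfl]
    exact @h inst rfl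
  · obtain rfl : inst' = inst := Algebra.algebra_ext _ _ fun a =>
      RingHom.congr_fun (congrArg CommRingCat.Hom.hom (Spec.map_injective hq)) a
    rw [hpull _ rfl, h]

/-- **The atlas of the level set of an invariant.** -/
def invariantAtlas [IsAlgClosed k] (Δ : Dictionary c ε R) (T : TwistTheory R) (H : ∀ b, ChartTheory R b)
    {χ : ∀ (F : Type u) [Field F] [Algebra k F], Glued R F → ℤ} (hinv : IsFieldInvariant χ) (n₀ : ℤ)
    (hn₀ : ∀ (F : Type u) [Field F] [Algebra k F], χ F (Glued.trivial R F) = n₀)
    (hcov : ∀ (K : Type u) [Field K] [Algebra k K] (L : Glued R K), L.Rigid → χ K L = n₀ →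
      ∃ (D : T.Tw) (b : Fin R.g → R.B1), (T.twist L D).ChartCond b ∧
        ∀ (K' : Type u) [Field K'] [Algebra k K'] (L' : Glued R K'),
          (T.twist L' D).ChartCond b → χ K' L' = n₀) :
    PicAffineAtlas (pointCut (invariantProperty Δ χ hinv n₀ hn₀)) :=
  picAffineAtlas Δ T H _ fun K _ _ N hN => by
    obtain ⟨D, b, h, h'⟩ := hcov K (Δ.glued K N) (Δ.rigid K N)
      ((invariantProperty_affStr_iff Δ hinv n₀ hn₀ K N).1 hN)
    refine ⟨D, b, h, ?_⟩
    intro K' _ _ N' hN'
    exact @Iff.mpr _ _ (invariantProperty_affStr_iff Δ hinv n₀ hn₀ K' N') (h' K' _ hN')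

end Fermat.Agent.Row24

end
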